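/-
Program DS (S48), package G, rows G2 + G3: calculus of `DsUpperDens`, Markov's inequality.
-/
import Mathlib
import Fermat.Agent.DS.K.Defs

set_option autoImplicit false

namespace Fermat.Agent.DS

theorem dsg_log_nonneg {s : ℝ} (h1 : 1 < s) (h2 : s ≤ 2) : 0 ≤ Real.log (1 / (s - 1)) := by
  apply Real.log_nonneg
  have hpos : 0 < s - 1 := by linarith
  rw [le_div_iff₀ hpos]
  linarith

/-- G2: monotonicity of `DsUpperDens`. -/
theorem dsg_upperDens_mono {N : ℕ} {T T' : Set (DsfPrime N)} {η η' : ℝ} (hT : T ⊆ T')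
    (hη : η ≤ η') (h : DsUpperDens N T' η) : DsUpperDens N T η' := by
  obtain ⟨C, hC⟩ := h
  refine ⟨C, fun s h1 h2 => ?_⟩
  obtain ⟨hsum, hle⟩ := hC s h1 h2
  have hsum' : Summable (fun p : T => (((p : DsfPrime N) : ℕ) : ℝ) ^ (-s)) := by
    have := hsum.comp_injective (i := Set.inclusion hT) (Set.inclusion_injective hT)
    exact this
  refine ⟨hsum', ?_⟩
  have hlog := dsg_log_nonneg h1 h2
  calc ∑' p : T, (((p : DsfPrime N) : ℕ) : ℝ) ^ (-s)
      ≤ ∑' p : T', (((p : DsfPrime N) : ℕ) : ℝ) ^ (-s) := by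
        refine Summable.tsum_le_tsum_of_inj (Set.inclusion hT) (Set.inclusion_injective hT)
          (fun p _ => Real.rpow_nonneg (Nat.cast_nonneg _) _) (fun p => le_rfl) hsum' hsum
    _ ≤ η * Real.log (1 / (s - 1)) + C := hle
    _ ≤ η' * Real.log (1 / (s - 1)) + C := by
        have := mul_le_mul_of_nonneg_right hη hlog
        linarith

/-- G2: finite subadditivity of `DsUpperDens`. -/
theorem dsg_upperDens_union {N : ℕ} {T T' : Set (DsfPrime N)} {η η' : ℝ}
    (h : DsUpperDens N T η) (h' : DsUpperDens N T' η') : DsUpperDens N (T ∪ T') (η + η') := by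
  obtain ⟨C, hC⟩ := h
  obtain ⟨C', hC'⟩ := h'
  refine ⟨C + C', fun s h1 h2 => ?_⟩
  obtain ⟨hsum, hle⟩ := hC s h1 h2
  obtain ⟨hsum', hle'⟩ := hC' s h1 h2
  set f : DsfPrime N → ℝ := fun p => ((p : ℕ) : ℝ) ^ (-s) with hf
  have hf0 : ∀ p, 0 ≤ f p := fun p => Real.rpow_nonneg (Nat.cast_nonneg _) _
  have hi : Summable (T.indicator (f)) := summable_subtype_iff_indicator.mp hsum
  have hi' : Summable (T'.indicator (f)) := summable_subtype_iff_indicator.mp hsum'
  have hle_ind : ∀ p, (T ∪ T').indicator (f) p ≤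
      T.indicator (f) p + T'.indicator (f) p := by
    intro p
    have h0 := hf0 p
    by_cases hp : p ∈ T <;> by_cases hp' : p ∈ T' <;>
      simp [Set.indicator, hp, hp', h0]
  have hiu : Summable ((T ∪ T').indicator (f)) :=
    Summable.of_nonneg_of_le (fun p => Set.indicator_nonneg (fun q _ => hf0 q) p)
      hle_ind (hi.add hi')
  have hsumu : Summable (fun p : (T ∪ T' : Set (DsfPrime N)) => (((p : DsfPrime N) : ℕ) : ℝ) ^ (-s)) :=
    summable_subtype_iff_indicator.mpr hiu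
  refine ⟨hsumu, ?_⟩
  have e1 : ∑' p : (T ∪ T' : Set (DsfPrime N)), (((p : DsfPrime N) : ℕ) : ℝ) ^ (-s)
      = ∑' p, (T ∪ T').indicator (f) p := tsum_subtype (T ∪ T') (f)
  have e2 : ∑' p : T, (((p : DsfPrime N) : ℕ) : ℝ) ^ (-s)
      = ∑' p, T.indicator (f) p := tsum_subtype T (f)
  have e3 : ∑' p : T', (((p : DsfPrime N) : ℕ) : ℝ) ^ (-s)
      = ∑' p, T'.indicator (f) p := tsum_subtype T' (f)
  have key : ∑' p, (T ∪ T').indicator (f) p ≤
      ∑' p, T.indicator (f) p + ∑' p, T'.indicator (f) p := by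
    rw [← Summable.tsum_add hi hi']
    exact Summable.tsum_le_tsum hle_ind hiu (hi.add hi')
  rw [e1]
  rw [e2] at hle
  rw [e3] at hle'
  calc _ ≤ _ := key
    _ ≤ (η * Real.log (1 / (s - 1)) + C) + (η' * Real.log (1 / (s - 1)) + C') := add_le_add hle hle'
    _ = (η + η') * Real.log (1 / (s - 1)) + (C + C') := by ring

/-- G2: the empty set has density `0`. -/
theorem dsg_upperDens_empty (N : ℕ) : DsUpperDens N ∅ 0 := by
  refine ⟨0, fun s _ _ => ⟨?_, ?_⟩⟩
  · exact summable_empty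
  · simp

/-- G2: finite unions. -/
theorem dsg_upperDens_biUnion {N : ℕ} {ι : Type} (I : Finset ι) (T : ι → Set (DsfPrime N))
    (η : ℝ) (h : ∀ i ∈ I, DsUpperDens N (T i) η) :
    DsUpperDens N (⋃ i ∈ I, T i) (I.card * η) := by
  classical
  induction I using Finset.induction_on with
  | empty => simpa using dsg_upperDens_empty N
  | insert i I hi ih =>
    have h1 := h i (Finset.mem_insert_self i I)
    have h2 := ih (fun j hj => h j (Finset.mem_insert_of_mem hj))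
    have := dsg_upperDens_union h1 h2
    rw [Finset.set_biUnion_insert, Finset.card_insert_of_notMem hi]
    convert this using 1
    push_cast
    ring

/-- G3 (Chebyshev/Markov) for a family: Rankin's bound gives
`updens {p : ‖b p‖² ≥ c} ≤ 1/c`. -/
theorem dsg_markovP {N : ℕ} {b : DsfPrime N → ℂ} (h : DsRankinP N b) (c : ℝ) (hc : 0 < c) :
    DsUpperDens N {p | c ≤ ‖b p‖ ^ 2} (1 / c) := by
  obtain ⟨C, hC⟩ := h
  refine ⟨C / c, fun s h1 h2 => ?_⟩
  obtain ⟨hsum, hle⟩ := hC s h1 h2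
  set T : Set (DsfPrime N) := {p | c ≤ ‖b p‖ ^ 2} with hT
  set F : DsfPrime N → ℝ := fun p => ‖b p‖ ^ 2 * ((p : ℕ) : ℝ) ^ (-s) with hF
  have hF0 : ∀ p, 0 ≤ F p := fun p =>
    mul_nonneg (by positivity) (Real.rpow_nonneg (Nat.cast_nonneg _) _)
  have hsub : Summable (fun p : T => F p) := hsum.subtype _
  have hterm : ∀ p : T, (((p : DsfPrime N) : ℕ) : ℝ) ^ (-s) ≤ F p / c := by
    intro p
    rw [le_div_iff₀ hc, hF]
    have h0 : 0 ≤ (((p : DsfPrime N) : ℕ) : ℝ) ^ (-s) := Real.rpow_nonneg (Nat.cast_nonneg _) _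
    have hp : c ≤ ‖b p‖ ^ 2 := p.2
    calc (((p : DsfPrime N) : ℕ) : ℝ) ^ (-s) * c
        = c * (((p : DsfPrime N) : ℕ) : ℝ) ^ (-s) := mul_comm _ _
      _ ≤ ‖b p‖ ^ 2 * (((p : DsfPrime N) : ℕ) : ℝ) ^ (-s) := mul_le_mul_of_nonneg_right hp h0
  have hsT : Summable (fun p : T => (((p : DsfPrime N) : ℕ) : ℝ) ^ (-s)) :=
    Summable.of_nonneg_of_le (fun p => Real.rpow_nonneg (Nat.cast_nonneg _) _) hterm
      (hsub.div_const c)
  refine ⟨hsT, ?_⟩
  calc ∑' p : T, (((p : DsfPrime N) : ℕ) : ℝ) ^ (-s)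
      ≤ ∑' p : T, F p / c := Summable.tsum_le_tsum hterm hsT (hsub.div_const c)
    _ = (∑' p : T, F p) / c := tsum_div_const
    _ ≤ (∑' p, F p) / c := by
        apply div_le_div_of_nonneg_right _ hc.le
        exact Summable.tsum_subtype_le F T hF0 hsum
    _ ≤ (Real.log (1 / (s - 1)) + C) / c := div_le_div_of_nonneg_right hle hc.le
    _ = 1 / c * Real.log (1 / (s - 1)) + C / c := by ring

/-- G3 (Chebyshev/Markov): Rankin's bound gives `updens {p : ‖a p‖² ≥ c} ≤ 1/c`. -/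
theorem dsg_markov {N : ℕ} {a : ℕ → ℂ} (h : DsRankin N a) (c : ℝ) (hc : 0 < c) :
    DsUpperDens N {p | c ≤ ‖a p‖ ^ 2} (1 / c) :=
  dsg_markovP h c hc

end Fermat.Agent.DS
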