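/-
Program DS (S48), package G, row G1: Northcott for a number field inside `ℂ`.
-/
import Mathlib
import Fermat.Agent.DS.K.Defs

set_option autoImplicit false

namespace Fermat.Agent.DS

/-- G1 (Northcott): algebraic integers of a number field `K ⊂ ℂ` with all conjugates of absolute
value squared `≤ c` form a finite set.  (Mathlib: `NumberField.Embeddings.finite_of_norm_le`.) -/
theorem dsg_northcott (K : IntermediateField ℚ ℂ) [FiniteDimensional ℚ K] (c : ℝ) :
    {x : ℂ | ∃ h : x ∈ K, IsIntegral ℤ x ∧ ∀ σ : K →+* ℂ, ‖σ ⟨x, h⟩‖ ^ 2 ≤ c}.Finite := by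
  haveI : NumberField K := ⟨⟩
  have hfin := NumberField.Embeddings.finite_of_norm_le K ℂ (Real.sqrt c)
  refine (hfin.image (fun x : K => (x : ℂ))).subset ?_
  rintro x ⟨h, hint, hσ⟩
  refine ⟨⟨x, h⟩, ⟨?_, fun σ => ?_⟩, rfl⟩
  · have : IsIntegral ℤ (algebraMap K ℂ ⟨x, h⟩) := hint
    exact (isIntegral_algebraMap_iff (algebraMap K ℂ).injective).mp this
  · exact Real.le_sqrt_of_sq_le (hσ σ)

end Fermat.Agent.DS
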