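/-
Program DS (S48), package G, row G4: for every `η > 0`, the coefficients `a p` take only finitely
many values outside a set of primes of upper density `≤ η` (Deligne–Serre §8, (8.3)).
-/
import Mathlib
import Fermat.Agent.DS.K.Defs
import Fermat.Agent.DS.G.Northcott
import Fermat.Agent.DS.G.Dens

set_option autoImplicit false

namespace Fermat.Agent.DS

/-- **G main**: for every `η > 0` the `a p` take only finitely many values
outside a set of primes of upper density `≤ η`. -/
theorem ds_finite_values {N : ℕ} {a : ℕ → ℂ} {K : IntermediateField ℚ ℂ}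
    (h : DsCoeffField N a K) (η : ℝ) (hη : 0 < η) :
    ∃ Y : Finset ℂ, DsUpperDens N {p | a p ∉ Y} η := by
  classical
  haveI : FiniteDimensional ℚ K := h.finite
  haveI : NumberField K := ⟨⟩
  set r : ℕ := Fintype.card (K →+* ℂ) with hr
  have hr0 : 0 < r := Fintype.card_pos
  have hrR : (0 : ℝ) < r := by exact_mod_cast hr0
  set c : ℝ := r / η with hc
  have hc0 : 0 < c := div_pos hrR hη
  have hfin := dsg_northcott K c
  refine ⟨hfin.toFinset, ?_⟩
  -- the bad set is contained in the union over the embeddings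
  have hsub : {p : DsfPrime N | a p ∉ hfin.toFinset} ⊆
      ⋃ σ ∈ (Finset.univ : Finset (K →+* ℂ)), {p : DsfPrime N | c ≤ ‖σ ⟨a p, h.mem p⟩‖ ^ 2} := by
    intro p hp
    simp only [Set.mem_setOf_eq, Set.Finite.mem_toFinset, not_exists, not_and, not_forall] at hp
    obtain ⟨σ, hσ⟩ := hp (h.mem p) (h.integral p)
    simp only [Finset.mem_univ, Set.iUnion_true, Set.mem_iUnion, Set.mem_setOf_eq]
    exact ⟨σ, (not_le.mp hσ).le⟩
  have hun := dsg_upperDens_biUnion (N := N) (Finset.univ : Finset (K →+* ℂ))
    (fun σ => {p : DsfPrime N | c ≤ ‖σ ⟨a p, h.mem p⟩‖ ^ 2}) (1 / c)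
    (fun σ _ => dsg_markovP (h.rankin σ) c hc0)
  refine dsg_upperDens_mono hsub ?_ hun
  rw [Finset.card_univ, ← hr, hc]
  have : (r : ℝ) * (1 / (r / η)) = η := by
    field_simp
  exact this.le

end Fermat.Agent.DS
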